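import Mathlib
import Fermat.Agent.LT.H556.A0
import Fermat.Agent.LT.T5.Spec
import Fermat.Agent.LT.T6.Spec

/-!
# Row LT, tower T7, leaf T7.G1 `GeomC` (SPARE of helper32): the algebra

OFF-MAIN.  Mathlib + `T5/Spec.lean` v4 (f2d97e70) + `T6/Spec.lean` v3 (8c5f2ae7) only.

* `twNorm_eq_normUpTo32`: the norms of T5 and T6 agree;
* `isCyclicData32`: `T5.IsCyclicOfDegree` + "the fixed field is the image of `K`" give
  `T6.IsCyclicData`;
* `normUpTo_twConj32`: `N(g⁻¹ δ σ(g)) = g⁻¹ N(δ) g`;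
* `no_root_of_isEllRegOver32`: an elliptic regular element has no eigenvalue in the subfield;
* `isEll_of_no_root32`: no eigenvalue in `K` ⇒ `T6.IsEll` (characteristic `≠ 2`);
* `conj_of_no_root32` (companion matrix): two elements of `GL₂(K)` with the same trace and
  determinant and without eigenvalue in `K` are conjugate in `GL₂(K)`.
-/

set_option autoImplicit false

open IsDedekindDomain NumberField

noncomputable section

namespace Fermat.Agent.LT.T7.H32

open Fermat.Agent.LT Fermat.Agent.LT.H556.A0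

/-! ## 1. The norm -/

section Norm

variable {K : Type} [Field K] [NumberField K]

theorem twNorm_eq_normUpTo32 (s : T5.AdelicAut K) (n : ℕ) (δ : GL (Fin 2) K) :
    T6.twNorm s.σ n δ = s.normUpTo n δ := by
  induction n with
  | zero => rfl
  | succ n ih =>
    show δ * T6.glAut s.σ (T6.twNorm s.σ n δ) = δ * s.onRat (s.normUpTo n δ)
    rw [ih]
    rfl

theorem isTwConj_iff32 (s : T5.AdelicAut K) (δ δ' : GL (Fin 2) K) :
    T6.IsTwConj s.σ δ δ' ↔ T5.TwConj s δ δ' := Iff.rfl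

/-- The iterates of `σ` on `GL₂(K)`. -/
theorem normUpTo_twConj_aux32 (s : T5.AdelicAut K) (g δ : GL (Fin 2) K) (n : ℕ) :
    s.normUpTo n (g⁻¹ * δ * s.onRat g) = g⁻¹ * s.normUpTo n δ * (s.onRat^[n]) g := by
  induction n with
  | zero => simp [T5.AdelicAut.normUpTo]
  | succ n ih =>
    show (g⁻¹ * δ * s.onRat g) * s.onRat (s.normUpTo n (g⁻¹ * δ * s.onRat g))
      = g⁻¹ * (δ * s.onRat (s.normUpTo n δ)) * (s.onRat^[n + 1]) g
    rw [ih, Function.iterate_succ_apply', map_mul, map_mul, map_inv]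
    group

theorem onRat_iterate_apply32 (s : T5.AdelicAut K) (n : ℕ) (g : GL (Fin 2) K) (i j : Fin 2) :
    ((s.onRat^[n]) g : Matrix (Fin 2) (Fin 2) K) i j
      = (s.σ ^ n) ((g : Matrix (Fin 2) (Fin 2) K) i j) := by
  induction n with
  | zero => simp
  | succ n ih =>
    rw [Function.iterate_succ_apply', pow_succ']
    show s.σ (((s.onRat^[n]) g : Matrix (Fin 2) (Fin 2) K) i j) = _
    rw [ih]
    rfl

theorem onRat_iterate_eq32 (s : T5.AdelicAut K) (l : ℕ) (h : ∀ x : K, (s.σ ^ l) x = x)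
    (g : GL (Fin 2) K) : (s.onRat^[l]) g = g := by
  apply Units.ext
  ext i j
  rw [onRat_iterate_apply32, h]

/-- `N(g⁻¹ δ σ(g)) = g⁻¹ N(δ) g`. -/
theorem normUpTo_twConj32 (s : T5.AdelicAut K) (l : ℕ) (h : ∀ x : K, (s.σ ^ l) x = x)
    (g δ : GL (Fin 2) K) :
    s.normUpTo l (g⁻¹ * δ * s.onRat g) = g⁻¹ * s.normUpTo l δ * g := by
  rw [normUpTo_twConj_aux32, onRat_iterate_eq32 s l h]

/-- The norms of two `σ`-conjugate elements are conjugate. -/
theorem isConj_normUpTo32 (s : T5.AdelicAut K) (l : ℕ) (h : ∀ x : K, (s.σ ^ l) x = x)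
    {δ δ' : GL (Fin 2) K} (hc : T5.TwConj s δ δ') :
    IsConj (s.normUpTo l δ) (s.normUpTo l δ') := by
  obtain ⟨g, rfl⟩ := hc
  rw [normUpTo_twConj32 s l h, isConj_iff]
  exact ⟨g⁻¹, by group⟩

end Norm

/-! ## 2. Cyclic data -/

section Cyc

variable {K K' : Type} [Field K] [NumberField K] [Field K'] [NumberField K'] [Algebra K K']

theorem isCyclicData32 {s : T5.AdelicAut K'} {l : ℕ} {k : Subfield K'}
    (hc : T5.IsCyclicOfDegree s l k)
    (hb : ∀ x : K', x ∈ k ↔ ∃ y : K, algebraMap K K' y = x) :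
    T6.IsCyclicData K K' l (algebraMap K K') s.σ where
  pos := hc.pos
  fix_i := fun x => (hc.fixed _).1 ((hb _).2 ⟨x, rfl⟩)
  fixed := fun y hy => (hb y).1 ((hc.fixed y).2 hy)
  order := hc.pow_eq
  faithful := hc.faithful

end Cyc

/-! ## 3. Elliptic elements -/

section Ell

variable {K : Type} [Field K]

/-- An elliptic regular element over `k` has no eigenvalue in `k`. -/
theorem no_root_of_isEllRegOver32 (k : Subfield K) (γ : GL (Fin 2) K)
    (h : T5.IsEllRegOver k γ) (x : K) (hx : x ∈ k) :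
    x ^ 2 - (γ : Matrix (Fin 2) (Fin 2) K).trace * x
      + (γ : Matrix (Fin 2) (Fin 2) K).det ≠ 0 := by
  obtain ⟨Q, hQ, hmap⟩ := h
  intro h0
  have hdeg : Q.natDegree = 2 := by
    have h1 : (Q.map (algebraMap k K)).natDegree = 2 := by
      rw [hmap, Matrix.charpoly_natDegree_eq_dim]
      simp
    rwa [Polynomial.natDegree_map] at h1
  have hroot : Polynomial.eval (⟨x, hx⟩ : k) Q = 0 := by
    have h1 : Polynomial.eval x (Q.map (algebraMap k K)) = 0 := by
      rw [hmap, Matrix.charpoly_fin_two]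
      simp only [Polynomial.eval_add, Polynomial.eval_sub, Polynomial.eval_pow,
        Polynomial.eval_X, Polynomial.eval_mul, Polynomial.eval_C]
      exact h0
    have h2 : Polynomial.eval (algebraMap k K (⟨x, hx⟩ : k)) (Q.map (algebraMap k K)) = 0 := h1
    rw [Polynomial.eval_map, Polynomial.eval₂_at_apply] at h2
    exact (map_eq_zero_iff _ (algebraMap k K).injective).1 h2
  have hd1 := Polynomial.natDegree_eq_of_degree_eq_some
    (Polynomial.degree_eq_one_of_irreducible_of_root hQ hroot)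
  rw [hdeg] at hd1
  norm_num at hd1

/-- No eigenvalue in `K` ⇒ elliptic in the sense of T6 (characteristic `≠ 2`). -/
theorem isEll_of_no_root32 (h2 : (2 : K) ≠ 0) (γ : GL (Fin 2) K)
    (h : ∀ x : K, x ^ 2 - (γ : Matrix (Fin 2) (Fin 2) K).trace * x
      + (γ : Matrix (Fin 2) (Fin 2) K).det ≠ 0) : T6.IsEll γ := by
  refine ⟨?_, h⟩
  unfold T6.IsReg T6.disc
  rw [isUnit_iff_ne_zero]
  intro h0
  apply h ((γ : Matrix (Fin 2) (Fin 2) K).trace / 2)
  field_simp
  linear_combination -h0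

/-- The lower left entry of a matrix without eigenvalue is not zero. -/
theorem lower_ne_zero32 (A : Matrix (Fin 2) (Fin 2) K)
    (h : ∀ x : K, x ^ 2 - A.trace * x + A.det ≠ 0) : A 1 0 ≠ 0 := by
  intro h0
  apply h (A 0 0)
  rw [Matrix.trace_fin_two, Matrix.det_fin_two, h0]
  ring

/-- **Companion matrix.**  Two elements of `GL₂(K)` with the same trace and determinant, one of
them without eigenvalue in `K`, are conjugate in `GL₂(K)`: `γ₂ = g⁻¹ γ₁ g`. -/
theorem conj_of_no_root32 (γ₁ γ₂ : GL (Fin 2) K)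
    (ht : (γ₁ : Matrix (Fin 2) (Fin 2) K).trace = (γ₂ : Matrix (Fin 2) (Fin 2) K).trace)
    (hd : (γ₁ : Matrix (Fin 2) (Fin 2) K).det = (γ₂ : Matrix (Fin 2) (Fin 2) K).det)
    (h : ∀ x : K, x ^ 2 - (γ₁ : Matrix (Fin 2) (Fin 2) K).trace * x
      + (γ₁ : Matrix (Fin 2) (Fin 2) K).det ≠ 0) :
    ∃ g : GL (Fin 2) K, γ₂ = g⁻¹ * γ₁ * g := by
  set A : Matrix (Fin 2) (Fin 2) K := (γ₁ : Matrix (Fin 2) (Fin 2) K) with hA
  set B : Matrix (Fin 2) (Fin 2) K := (γ₂ : Matrix (Fin 2) (Fin 2) K) with hB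
  have hA10 : A 1 0 ≠ 0 := lower_ne_zero32 A h
  have hB10 : B 1 0 ≠ 0 := lower_ne_zero32 B (by rw [← ht, ← hd]; exact h)
  set M : Matrix (Fin 2) (Fin 2) K := !![B 1 0, A 0 0 - B 0 0; 0, A 1 0] with hM
  have hdet : M.det ≠ 0 := by
    rw [hM, Matrix.det_fin_two_of]
    simpa using mul_ne_zero hB10 hA10
  have ht' : A 0 0 + A 1 1 = B 0 0 + B 1 1 := by
    have := ht
    rwa [Matrix.trace_fin_two, Matrix.trace_fin_two] at this
  have hd' : A 0 0 * A 1 1 - A 0 1 * A 1 0 = B 0 0 * B 1 1 - B 0 1 * B 1 0 := by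
    have := hd
    rwa [Matrix.det_fin_two, Matrix.det_fin_two] at this
  have hAM : A * M = M * B := by
    ext i j
    fin_cases i <;> fin_cases j
    · simp only [hM, Matrix.mul_apply, Fin.sum_univ_two, Fin.zero_eta, Fin.isValue,
        Matrix.of_apply, Matrix.cons_val', Matrix.cons_val_zero, Matrix.cons_val_one,
        Matrix.cons_val_fin_one, Fin.mk_one]
      ring
    · simp only [hM, Matrix.mul_apply, Fin.sum_univ_two, Fin.zero_eta, Fin.isValue,
        Matrix.of_apply, Matrix.cons_val', Matrix.cons_val_zero, Matrix.cons_val_one,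
        Matrix.cons_val_fin_one, Fin.mk_one]
      linear_combination (A 0 0) * ht' - hd'
    · simp only [hM, Matrix.mul_apply, Fin.sum_univ_two, Fin.zero_eta, Fin.isValue,
        Matrix.of_apply, Matrix.cons_val', Matrix.cons_val_zero, Matrix.cons_val_one,
        Matrix.cons_val_fin_one, Fin.mk_one]
      ring
    · simp only [hM, Matrix.mul_apply, Fin.sum_univ_two, Fin.zero_eta, Fin.isValue,
        Matrix.of_apply, Matrix.cons_val', Matrix.cons_val_zero, Matrix.cons_val_one,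
        Matrix.cons_val_fin_one, Fin.mk_one]
      linear_combination (A 1 0) * ht'
  refine ⟨Matrix.GeneralLinearGroup.mkOfDetNeZero M hdet, ?_⟩
  have hmul : γ₁ * Matrix.GeneralLinearGroup.mkOfDetNeZero M hdet
      = Matrix.GeneralLinearGroup.mkOfDetNeZero M hdet * γ₂ := by
    apply Units.ext
    exact hAM
  rw [mul_assoc, hmul, inv_mul_cancel_left]

end Ell

/-! ## 4. Trace and determinant of conjugates and of rational points -/

section TrDet

variable {K K' : Type} [Field K] [Field K']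

theorem trace_of_isConj32 {a b : GL (Fin 2) K} (h : IsConj a b) :
    (a : Matrix (Fin 2) (Fin 2) K).trace = (b : Matrix (Fin 2) (Fin 2) K).trace := by
  obtain ⟨c, hc⟩ := isConj_iff.1 h
  rw [← hc]
  show _ = ((c : Matrix (Fin 2) (Fin 2) K) * (a : Matrix (Fin 2) (Fin 2) K)
    * ((c⁻¹ : GL (Fin 2) K) : Matrix (Fin 2) (Fin 2) K)).trace
  rw [Matrix.trace_mul_cycle, ← Units.val_mul, inv_mul_cancel, Units.val_one, Matrix.one_mul]

theorem det_of_isConj32 {a b : GL (Fin 2) K} (h : IsConj a b) :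
    (a : Matrix (Fin 2) (Fin 2) K).det = (b : Matrix (Fin 2) (Fin 2) K).det := by
  obtain ⟨c, hc⟩ := isConj_iff.1 h
  rw [← hc]
  show _ = ((c : Matrix (Fin 2) (Fin 2) K) * (a : Matrix (Fin 2) (Fin 2) K)
    * ((c⁻¹ : GL (Fin 2) K) : Matrix (Fin 2) (Fin 2) K)).det
  rw [Matrix.det_mul, Matrix.det_mul, mul_comm, ← mul_assoc, ← Matrix.det_mul, ← Units.val_mul,
    inv_mul_cancel, Units.val_one, Matrix.det_one, one_mul]

theorem trace_map32 (i : K →+* K') (γ : GL (Fin 2) K) :
    ((Matrix.GeneralLinearGroup.map i γ : GL (Fin 2) K') : Matrix (Fin 2) (Fin 2) K').trace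
      = i (γ : Matrix (Fin 2) (Fin 2) K).trace := by
  rw [Matrix.trace_fin_two, Matrix.trace_fin_two, map_add]
  rfl

theorem det_map32 (i : K →+* K') (γ : GL (Fin 2) K) :
    ((Matrix.GeneralLinearGroup.map i γ : GL (Fin 2) K') : Matrix (Fin 2) (Fin 2) K').det
      = i (γ : Matrix (Fin 2) (Fin 2) K).det := by
  rw [Matrix.det_fin_two, Matrix.det_fin_two, map_sub, map_mul, map_mul]
  rfl

end TrDet

end Fermat.Agent.LT.T7.H32

end
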