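import Mathlib
import Fermat.Agent.LT.H556.A0
import Fermat.Agent.LT.T1.Spec
import Fermat.Agent.LT.T5.Spec
import Fermat.Agent.LT.T5.H71.TwUnfold

/-!
# Row LT, tower T7, leaf T7.G1 `GeomC` (SPARE of helper32): fundamental domains of the twisted
# centralisers

OFF-MAIN.  `exists_isTwDomain32`: for a frame `(μ, F)` and every `δ ∈ GL₂(K)` the twisted
centraliser `G^σ_δ(K)` has a strict Borel fundamental domain in the slab:

    F_δ = ⋃_{t ∈ T} (ratG t)⁻¹ F,    T = representatives of the left cosets `γ G^σ_δ(K)`.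
-/

set_option autoImplicit false

open IsDedekindDomain NumberField MeasureTheory

noncomputable section

namespace Fermat.Agent.LT.T7.H32

open Fermat.Agent.LT Fermat.Agent.LT.H556.A0 Fermat.Agent.LT.T5

attribute [local instance] Fermat.Agent.LT.T5.instMeasurableSpaceG

variable {K : Type} [Field K] [NumberField K]

/-- The fundamental domain of a subgroup `H` of `GL₂(K)` built from the fundamental domain `F`
of `GL₂(K)`. -/
def subDom32 (H : Subgroup (GL (Fin 2) K)) (F : Set (G K)) : Set (G K) :=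
  ⋃ q : GL (Fin 2) K ⧸ H, (fun g : G K => ratG (Quotient.out q) * g) ⁻¹' F

theorem mem_subDom32 (H : Subgroup (GL (Fin 2) K)) (F : Set (G K)) (g : G K) :
    g ∈ subDom32 H F ↔ ∃ q : GL (Fin 2) K ⧸ H, ratG (Quotient.out q) * g ∈ F := by
  simp [subDom32]

theorem measurableSet_subDom32 (H : Subgroup (GL (Fin 2) K)) {F : Set (G K)}
    (hF : MeasurableSet F) : MeasurableSet (subDom32 H F) := by
  haveI : BorelSpace (G K) := ⟨rfl⟩
  haveI : Countable (GL (Fin 2) K) := H71.countable_gl71 K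
  haveI : Countable (GL (Fin 2) K ⧸ H) :=
    (QuotientGroup.mk_surjective (s := H)).countable
  refine MeasurableSet.iUnion fun q => ?_
  exact (continuous_const_mul (ratG (Quotient.out q))).measurable hF

theorem subDom_sub_slab32 (hN : T1.AdNormC K) (H : Subgroup (GL (Fin 2) K)) {F : Set (G K)}
    (hF : F ⊆ slab K) : subDom32 H F ⊆ slab K := by
  intro g hg
  obtain ⟨q, hq⟩ := (mem_subDom32 H F g).1 hg
  have h := H71.slab_ratG_mul71 hN (Quotient.out q)⁻¹ _ (hF hq)
  rwa [← mul_assoc, ← map_mul, inv_mul_cancel, map_one, one_mul] at h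

theorem subDom_strict32 (H : Subgroup (GL (Fin 2) K)) {F : Set (G K)}
    (hF : ∀ g ∈ slab K, ∃! γ : GL (Fin 2) K, ratG γ * g ∈ F) (g : G K) (hg : g ∈ slab K) :
    ∃! h : H, ratG (h : GL (Fin 2) K) * g ∈ subDom32 H F := by
  obtain ⟨γ₀, hγ₀, huniq⟩ := hF g hg
  set q₀ : GL (Fin 2) K ⧸ H := QuotientGroup.mk γ₀ with hq₀
  have hmem : (Quotient.out q₀)⁻¹ * γ₀ ∈ H := by
    rw [← QuotientGroup.eq]
    exact Quotient.out_eq q₀
  refine ⟨⟨(Quotient.out q₀)⁻¹ * γ₀, hmem⟩, ?_, ?_⟩
  · show ratG ((Quotient.out q₀)⁻¹ * γ₀) * g ∈ subDom32 H F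
    rw [mem_subDom32]
    refine ⟨q₀, ?_⟩
    rw [← mul_assoc, ← map_mul, mul_inv_cancel_left]
    exact hγ₀
  · rintro ⟨h, hh⟩ hmem'
    have hmem'' : ratG h * g ∈ subDom32 H F := hmem'
    rw [mem_subDom32] at hmem''
    obtain ⟨q, hq⟩ := hmem''
    rw [← mul_assoc, ← map_mul] at hq
    have e := huniq _ hq
    -- `q.out * h = γ₀`
    have hq' : q = q₀ := by
      rw [hq₀, ← Quotient.out_eq q]
      show QuotientGroup.mk (Quotient.out q) = QuotientGroup.mk γ₀
      rw [QuotientGroup.eq, ← e, inv_mul_cancel_left]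
      exact hh
    apply Subtype.ext
    show h = (Quotient.out q₀)⁻¹ * γ₀
    rw [← e, hq', inv_mul_cancel_left]

/-- **Fundamental domains of the twisted centralisers exist.** -/
theorem exists_isTwDomain32 (hN : T1.AdNormC K) {μ : Measure (G K)} {F : Set (G K)}
    (hF : IsFrame μ F) (s : AdelicAut K) (δ : GL (Fin 2) K) :
    ∃ Fδ : Set (G K), IsTwDomain s δ Fδ :=
  ⟨subDom32 (twStab s δ) F,
    ⟨measurableSet_subDom32 _ hF.meas, subDom_sub_slab32 hN _ hF.sub,
      fun g hg => subDom_strict32 (twStab s δ) hF.strict g hg⟩⟩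

end Fermat.Agent.LT.T7.H32

end
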