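import Mathlib
import Fermat.Agent.LT.T7.Matching
import Fermat.Agent.LT.T7.H32.GeomAlg
import Fermat.Agent.LT.T7.H32.GeomDom
import Fermat.Agent.LT.T1.Closed
import Fermat.Agent.LT.T5.H655.RaySlab

/-!
# Row LT, tower T7, leaf T7.G1 `GeomC` (class bijection) — SPARE of helper32, UNCONDITIONAL

OFF-MAIN.  `geomC32 : T7.GeomC K K'`, VERBATIM against `T7/Matching.lean` (helper797@cb30661f3,
sha256 0549163e), for every pair of number fields.

Proof.  Fundamental domains of the twisted centralisers exist (`GeomDom.lean`), so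
`T5.GeomUnfold` writes both geometric sides as finite sums of class integrals
`I'(c') = ∫_{F_{δ}} φ'♭(x⁻¹ δ σ(x)) dx`, `I(c) = ∫_{F_γ} f♭(x⁻¹ γ x) dx`.  A class with
`I' ≠ 0` has elliptic regular norm (σ-regularity), a class with `I ≠ 0` is elliptic (regularity).
The map `Φ : c' ↦` (class of a `K`-rational conjugate of `N δ`, `T6.NormClassC`) is a bijection
from the support of `I'` onto the support of `I`:
* `I'(c') = I(Φ c')` (matching), so `Φ` maps the support into the support;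
* injective: `T6.NormInjC`;
* surjective: a class `c` with `I(c) ≠ 0` is a norm (otherwise `I(c) = 0`: `nonnorm`), say of
  `δ`; then `I'([δ]) = I(c)` and `Φ [δ] = c` because two elements of `GL₂(K)` without eigenvalue
  in `K` which are conjugate in `GL₂(K')` are conjugate in `GL₂(K)` (companion matrix).
-/

set_option autoImplicit false

open IsDedekindDomain NumberField MeasureTheory

noncomputable section

namespace Fermat.Agent.LT.T7.H32

open Fermat.Agent.LT Fermat.Agent.LT.H556 Fermat.Agent.LT.H556.A0 Fermat.Agent.LT.T7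

attribute [local instance] Fermat.Agent.LT.T5.instMeasurableSpaceG

section OneField

variable {K : Type} [Field K] [NumberField K]

/-- The powers of the ray generator lie on the central ray. -/
theorem isCentralRay_zpow32 {r : G K} (hr : T5.IsRayGen r) (m : ℤ) : T5.IsCentralRay (r ^ m) :=
  ((T5.H655.raySlabC655 K (T1.t1Out K).adNorm).1 r hr).2.1 m

/-- A class with non-zero integral has elliptic regular norm. -/
theorem isEllRegOver_of_integral_ne_zero32 {s : T5.AdelicAut K} {l : ℕ} {k : Subfield K}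
    {r : G K} (hr : T5.IsRayGen r) {φ : G K → ℂ} (hreg : T5.IsTwRegular s l k φ)
    (δ : GL (Fin 2) K) (Fδ : Set (G K)) (μ : Measure (G K))
    (h : ∫ x in Fδ, T5.twTerm r s φ δ x ∂μ ≠ 0) : T5.IsEllRegOver k (s.normUpTo l δ) := by
  by_contra hne
  apply h
  have h0 : ∀ x : G K, T5.twTerm r s φ δ x = 0 := by
    intro x
    by_contra hx
    have hex : ∃ m : ℤ, φ (x⁻¹ * T5.ratG δ * s.onG x * r ^ m) ≠ 0 := by
      by_contra hall
      push_neg at hall
      apply hx
      show ∑' m : ℤ, φ (x⁻¹ * T5.ratG δ * s.onG x * r ^ m) = 0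
      simp [hall]
    obtain ⟨m, hm⟩ := hex
    exact hne (hreg x δ (r ^ m) (isCentralRay_zpow32 hr m) hm)
  simp [h0]

theorem normUpTo_one_id32 (γ : GL (Fin 2) K) : (T5.AdelicAut.id K).normUpTo 1 γ = γ := by
  show γ * (T5.AdelicAut.id K).onRat 1 = γ
  rw [map_one, mul_one]

/-- `T6.IsEll` only depends on the trace and the determinant. -/
theorem isEll_congr32 {γ₁ γ₂ : GL (Fin 2) K}
    (ht : (γ₁ : Matrix (Fin 2) (Fin 2) K).trace = (γ₂ : Matrix (Fin 2) (Fin 2) K).trace)
    (hd : (γ₁ : Matrix (Fin 2) (Fin 2) K).det = (γ₂ : Matrix (Fin 2) (Fin 2) K).det)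
    (h : T6.IsEll γ₁) : T6.IsEll γ₂ := by
  obtain ⟨h1, h2⟩ := h
  refine ⟨?_, fun x => ?_⟩
  · unfold T6.IsReg T6.disc at h1 ⊢
    rwa [← ht, ← hd]
  · rw [← ht, ← hd]
    exact h2 x

/-- Conjugacy in the frame of T4. -/
theorem twConj_id_iff32 (γ γ' : GL (Fin 2) K) :
    T5.TwConj (T5.AdelicAut.id K) γ γ' ↔ ∃ g : GL (Fin 2) K, γ' = g⁻¹ * γ * g := by
  constructor
  · rintro ⟨g, hg⟩
    rw [T5.onRat_id] at hg
    exact ⟨g, hg⟩
  · rintro ⟨g, hg⟩
    exact ⟨g, by rw [T5.onRat_id]; exact hg⟩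

end OneField

section TwoFields

variable {K K' : Type} [Field K] [NumberField K] [Field K'] [NumberField K'] [Algebra K K']

/-- `IsNormOf` is invariant under conjugation downstairs. -/
theorem isNormOf_conj32 (D : CompData K K') {δ : GL (Fin 2) K'} {γ γ₂ : GL (Fin 2) K}
    (h : IsNormOf D δ γ) (hc : T5.TwConj (T5.AdelicAut.id K) γ γ₂) : IsNormOf D δ γ₂ := by
  obtain ⟨g, rfl⟩ := (twConj_id_iff32 γ γ₂).1 hc
  refine IsConj.trans h ?_
  rw [isConj_iff]
  refine ⟨(Matrix.GeneralLinearGroup.map (algebraMap K K') g)⁻¹, ?_⟩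
  rw [map_mul, map_mul, map_inv, inv_inv]

/-- `IsNormOf` is invariant under `σ`-conjugation upstairs. -/
theorem isNormOf_twConj32 (D : CompData K K') (hD : IsCompData D) {δ δ₂ : GL (Fin 2) K'}
    {γ : GL (Fin 2) K} (h : IsNormOf D δ γ) (hc : T5.TwConj D.s δ δ₂) : IsNormOf D δ₂ γ :=
  IsConj.trans (isConj_normUpTo32 D.s D.l hD.cyc.pow_eq hc).symm h

/-- The trace of a norm. -/
theorem trace_isNormOf32 (D : CompData K K') {δ : GL (Fin 2) K'} {γ : GL (Fin 2) K}
    (h : IsNormOf D δ γ) :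
    ((D.s.normUpTo D.l δ : GL (Fin 2) K') : Matrix (Fin 2) (Fin 2) K').trace
      = algebraMap K K' (γ : Matrix (Fin 2) (Fin 2) K).trace := by
  rw [trace_of_isConj32 h, trace_map32]

/-- The determinant of a norm. -/
theorem det_isNormOf32 (D : CompData K K') {δ : GL (Fin 2) K'} {γ : GL (Fin 2) K}
    (h : IsNormOf D δ γ) :
    ((D.s.normUpTo D.l δ : GL (Fin 2) K') : Matrix (Fin 2) (Fin 2) K').det
      = algebraMap K K' (γ : Matrix (Fin 2) (Fin 2) K).det := by
  rw [det_of_isConj32 h, det_map32]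

/-- A `K`-rational conjugate of an elliptic regular norm is elliptic. -/
theorem isEll_of_isNormOf32 (D : CompData K K') (hD : IsCompData D) {δ : GL (Fin 2) K'}
    {γ : GL (Fin 2) K} (h : IsNormOf D δ γ) (hE : T5.IsEllRegOver D.k (D.s.normUpTo D.l δ)) :
    T6.IsEll γ := by
  refine isEll_of_no_root32 two_ne_zero γ fun x hx => ?_
  have hmem : algebraMap K K' x ∈ D.k := (hD.base _).2 ⟨x, rfl⟩
  apply no_root_of_isEllRegOver32 D.k _ hE (algebraMap K K' x) hmem
  rw [trace_isNormOf32 D h, det_isNormOf32 D h, ← map_pow, ← map_mul, ← map_sub, ← map_add, hx,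
    map_zero]

/-- **T7.G1 `GeomC`**, verbatim and unconditional. -/
theorem geomC32 : GeomC K K' := by
  intro D hD hU' hU hNC hNI φ' f hφ' hreg' hf hreg hm
  classical
  have hN : T1.AdNormC K := (T1.t1Out K).adNorm
  have hN' : T1.AdNormC K' := (T1.t1Out K').adNorm
  have hcd : T6.IsCyclicData K K' D.l (algebraMap K K') D.s.σ :=
    isCyclicData32 hD.cyc hD.base
  have hinj : Function.Injective (algebraMap K K') := (algebraMap K K').injective
  -- the domains
  have hdom' : ∀ δ : GL (Fin 2) K', ∃ Fδ : Set (G K'), T5.IsTwDomain D.s δ Fδ :=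
    fun δ => exists_isTwDomain32 hN' hD.frame'.frame D.s δ
  have hdom : ∀ γ : GL (Fin 2) K, ∃ Fγ : Set (G K),
      T5.IsTwDomain (T5.AdelicAut.id K) γ Fγ :=
    fun γ => exists_isTwDomain32 hN hD.frame.frame _ γ
  choose Dom' hDom' using hdom'
  choose Dom hDom using hdom
  -- the representatives
  set rep' : T5.TwClass D.s → GL (Fin 2) K' := fun c => Quotient.out c with hrep'
  set rep : T5.TwClass (T5.AdelicAut.id K) → GL (Fin 2) K := fun c => Quotient.out c with hrep
  have hrep'c : ∀ c, Quotient.mk (T5.twSetoid D.s) (rep' c) = c := fun c => Quotient.out_eq c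
  have hrepc : ∀ c, Quotient.mk (T5.twSetoid (T5.AdelicAut.id K)) (rep c) = c :=
    fun c => Quotient.out_eq c
  have hout' : ∀ δ : GL (Fin 2) K', T5.TwConj D.s (rep' (Quotient.mk (T5.twSetoid D.s) δ)) δ :=
    fun δ => Quotient.mk_out (s := T5.twSetoid D.s) δ
  have hout : ∀ γ : GL (Fin 2) K, T5.TwConj (T5.AdelicAut.id K)
      (rep (Quotient.mk (T5.twSetoid (T5.AdelicAut.id K)) γ)) γ :=
    fun γ => Quotient.mk_out (s := T5.twSetoid (T5.AdelicAut.id K)) γ
  -- the unfolding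
  obtain ⟨-, hunf'⟩ := hU' D.R'.μ D.R'.F D.R'.r hD.frame'.frame hD.frame'.ray hD.aut φ' hφ'
    hreg'
  obtain ⟨-, heq'⟩ := hunf' rep' (fun c => Dom' (rep' c)) hrep'c (fun c => hDom' (rep' c))
  obtain ⟨-, hunf⟩ := hU D.R.μ D.R.F D.R.r hD.frame.frame hD.frame.ray
    (T5.autPreserves_id D.𝔫 D.R.μ D.R.r) f hf hreg
  obtain ⟨-, heq⟩ := hunf rep (fun c => Dom (rep c)) hrepc (fun c => hDom (rep c))
  unfold geomSide
  rw [heq', heq]
  -- the class integrals
  set I' : T5.TwClass D.s → ℂ :=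
    fun c => ∫ x in Dom' (rep' c), T5.twTerm D.R'.r D.s φ' (rep' c) x ∂D.R'.μ with hI'
  set I : T5.TwClass (T5.AdelicAut.id K) → ℂ :=
    fun c => ∫ x in Dom (rep c), T5.twTerm D.R.r (T5.AdelicAut.id K) f (rep c) x ∂D.R.μ with hI
  show ∑ᶠ c, I' c = ∑ᶠ c, I c
  -- the norm classes
  have hΓ : ∀ δ : GL (Fin 2) K', ∃ γ : GL (Fin 2) K, IsNormOf D δ γ := by
    intro δ
    obtain ⟨γ, hγ⟩ := hNC K K' D.l (algebraMap K K') D.s.σ hcd δ
    rw [twNorm_eq_normUpTo32] at hγ
    exact ⟨γ, hγ⟩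
  choose Γ hΓ using hΓ
  set Φ : T5.TwClass D.s → T5.TwClass (T5.AdelicAut.id K) :=
    fun c' => Quotient.mk (T5.twSetoid (T5.AdelicAut.id K)) (Γ (rep' c')) with hΦ
  -- ellipticity on the supports
  have ell_up : ∀ c', I' c' ≠ 0 → ∀ γ : GL (Fin 2) K, IsNormOf D (rep' c') γ → T6.IsEll γ :=
    fun c' hc' γ hγ => isEll_of_isNormOf32 D hD hγ
      (isEllRegOver_of_integral_ne_zero32 hD.frame'.ray hreg' (rep' c') _ _ hc')
  have ell_down : ∀ c, I c ≠ 0 → T6.IsEll (rep c) := by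
    intro c hc
    have hE := isEllRegOver_of_integral_ne_zero32 hD.frame.ray hreg (rep c) _ _ hc
    rw [normUpTo_one_id32] at hE
    exact isEll_of_no_root32 two_ne_zero _
      (fun x => no_root_of_isEllRegOver32 ⊤ _ hE x (Subfield.mem_top x))
  -- matching of the class integrals
  have hmatch : ∀ c' c, T6.IsEll (rep c) → IsNormOf D (rep' c') (rep c) → I' c' = I c :=
    fun c' c hE hNm => hm.norm (rep' c') (rep c) hE hNm _ _ (hDom' (rep' c')) (hDom (rep c))
  -- the value at `Φ c'`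
  have hΦval : ∀ c', I' c' ≠ 0 → I' c' = I (Φ c') := by
    intro c' hc'
    have hγ := hΓ (rep' c')
    have hE : T6.IsEll (Γ (rep' c')) := ell_up c' hc' _ hγ
    have hconj : T5.TwConj (T5.AdelicAut.id K) (Γ (rep' c')) (rep (Φ c')) :=
      T5.twConj_symm _ (hout (Γ (rep' c')))
    have hNm : IsNormOf D (rep' c') (rep (Φ c')) := isNormOf_conj32 D hγ hconj
    have hE2 : T6.IsEll (rep (Φ c')) := by
      obtain ⟨g, hg⟩ := (twConj_id_iff32 _ _).1 hconj
      have hc2 : IsConj (Γ (rep' c')) (rep (Φ c')) := by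
        rw [isConj_iff]
        exact ⟨g⁻¹, by rw [hg, inv_inv]⟩
      exact isEll_congr32 (trace_of_isConj32 hc2) (det_of_isConj32 hc2) hE
    exact hmatch c' (Φ c') hE2 hNm
  rw [← finsum_mem_support I', ← finsum_mem_support I]
  refine finsum_mem_eq_of_bijOn Φ ⟨?_, ?_, ?_⟩ (fun c' hc' => hΦval c' hc')
  · -- maps to
    intro c' hc'
    have h := hΦval c' hc'
    show I (Φ c') ≠ 0
    rw [← h]
    exact hc'
  · -- injective
    intro c₁ hc₁ c₂ hc₂ h12
    have hconj : T5.TwConj (T5.AdelicAut.id K) (Γ (rep' c₁)) (Γ (rep' c₂)) := Quotient.exact h12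
    have hN2 : IsNormOf D (rep' c₁) (Γ (rep' c₂)) := isNormOf_conj32 D (hΓ (rep' c₁)) hconj
    have hcc : IsConj (D.s.normUpTo D.l (rep' c₁)) (D.s.normUpTo D.l (rep' c₂)) :=
      IsConj.trans hN2 (hΓ (rep' c₂)).symm
    have hE : T6.IsEll (Γ (rep' c₁)) := ell_up c₁ hc₁ _ (hΓ (rep' c₁))
    have hreg1 : T6.IsReg (T6.twNorm D.s.σ D.l (rep' c₁)) := by
      rw [twNorm_eq_normUpTo32]
      have h1 := hE.1
      unfold T6.IsReg T6.disc at h1 ⊢
      rw [trace_isNormOf32 D (hΓ (rep' c₁)), det_isNormOf32 D (hΓ (rep' c₁))]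
      rw [isUnit_iff_ne_zero] at h1 ⊢
      intro h0
      apply h1
      apply hinj
      rw [map_sub, map_pow, map_mul, map_zero, map_ofNat]
      exact h0
    have htw : T6.IsTwConj D.s.σ (rep' c₁) (rep' c₂) := by
      apply hNI K K' D.l (algebraMap K K') D.s.σ hcd (rep' c₁) (rep' c₂) hreg1
      rw [twNorm_eq_normUpTo32, twNorm_eq_normUpTo32]
      exact hcc
    have htw' : T5.TwConj D.s (rep' c₁) (rep' c₂) := htw
    rw [← hrep'c c₁, ← hrep'c c₂]
    exact Quotient.sound htw'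
  · -- surjective
    intro c hc
    have hE : T6.IsEll (rep c) := ell_down c hc
    have hnorm : ∃ δ : GL (Fin 2) K', IsNormOf D δ (rep c) := by
      by_contra hno
      exact hc (hm.nonnorm (rep c) hE hno _ (hDom (rep c)))
    obtain ⟨δ, hδ⟩ := hnorm
    set c' : T5.TwClass D.s := Quotient.mk (T5.twSetoid D.s) δ with hc'def
    have hNm : IsNormOf D (rep' c') (rep c) :=
      isNormOf_twConj32 D hD hδ (T5.twConj_symm _ (hout' δ))
    have hval : I' c' = I c := hmatch c' c hE hNm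
    have hc'ne : I' c' ≠ 0 := by rw [hval]; exact hc
    refine ⟨c', hc'ne, ?_⟩
    -- `Φ c' = c`
    have hγ₂ := hΓ (rep' c')
    have hE₂ : T6.IsEll (Γ (rep' c')) := ell_up c' hc'ne _ hγ₂
    have ht : ((Γ (rep' c') : GL (Fin 2) K) : Matrix (Fin 2) (Fin 2) K).trace
        = ((rep c : GL (Fin 2) K) : Matrix (Fin 2) (Fin 2) K).trace := by
      apply hinj
      rw [← trace_isNormOf32 D hγ₂, ← trace_isNormOf32 D hNm]
    have hd : ((Γ (rep' c') : GL (Fin 2) K) : Matrix (Fin 2) (Fin 2) K).det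
        = ((rep c : GL (Fin 2) K) : Matrix (Fin 2) (Fin 2) K).det := by
      apply hinj
      rw [← det_isNormOf32 D hγ₂, ← det_isNormOf32 D hNm]
    obtain ⟨g, hg⟩ := conj_of_no_root32 (Γ (rep' c')) (rep c) ht hd hE₂.2
    have hconj : T5.TwConj (T5.AdelicAut.id K) (Γ (rep' c')) (rep c) :=
      (twConj_id_iff32 _ _).2 ⟨g, hg⟩
    show Quotient.mk (T5.twSetoid (T5.AdelicAut.id K)) (Γ (rep' c')) = c
    rw [← hrepc c]
    exact Quotient.sound hconj

end TwoFields

end Fermat.Agent.LT.T7.H32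

end
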