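import Mathlib
import Fermat.Agent.LT.T7.Matching
import Fermat.Agent.LT.T4.Closed

/-!
# Row LT, tower T7, `SpecIdC` with the towers T5 and T4 PLUGGED IN (helper32, architect of T5)

OFF-MAIN.  `T7/Matching.lean` (helper797@cb30661f3, sha256 0549163e, byte-identical copy) proves

    specIdC_of : (∀ D, IsCompData D → T5.Tower D.s D.l D.k D.𝔑 trivType) →
                 (∀ 𝔫 ≠ ⊥, T5.Tower (AdelicAut.id K) 1 ⊤ 𝔫 trivType) →
                 T6.NormClassC → T6.NormInjC → GeomC K K' → SpecIdC K K'.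

The two towers are CLOSED (`T5.tower_closed`, `T4.tower_closed`; `T5/Closed.lean` v9,
`T4/Closed.lean` v3), so

    specIdC_of_geom32 : T6.NormClassC → T6.NormInjC → GeomC K K' → SpecIdC K K'.

Also the two hypotheses of `GeomC` on the geometric unfolding are closed:
`geomUnfold_up32`, `geomUnfold_down32`.
-/

set_option autoImplicit false

open IsDedekindDomain NumberField MeasureTheory

noncomputable section

namespace Fermat.Agent.LT.T7.H32

open Fermat.Agent.LT Fermat.Agent.LT.H556 Fermat.Agent.LT.H556.A0 Fermat.Agent.LT.T7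

attribute [local instance] Fermat.Agent.LT.T5.instMeasurableSpaceG

variable {K K' : Type} [Field K] [NumberField K] [Field K'] [NumberField K'] [Algebra K K']

/-- The level upstairs is not zero. -/
theorem level_ne32 {D : CompData K K'} (hD : IsCompData D) : D.𝔑 ≠ ⊥ := by
  rw [hD.level]
  intro h
  apply hD.level_ne
  have hinj : Function.Injective (algebraMap (𝓞 K) (𝓞 K')) :=
    FaithfulSMul.algebraMap_injective (𝓞 K) (𝓞 K')
  exact (Ideal.map_eq_bot_iff_of_injective hinj).1 h

/-- The tower of T5 for the data of the comparison, CLOSED. -/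
theorem tower_up32 (D : CompData K K') (hD : IsCompData D) :
    T5.Tower D.s D.l D.k D.𝔑 T5.trivType :=
  T5.tower_closed D.s D.l D.k D.𝔑 T5.trivType (level_ne32 hD) hD.cyc

/-- The tower of T4 downstairs, CLOSED. -/
theorem tower_down32 (𝔫 : Ideal (𝓞 K)) (h𝔫 : 𝔫 ≠ ⊥) :
    T5.Tower (T5.AdelicAut.id K) 1 ⊤ 𝔫 T5.trivType :=
  T4.tower_closed K 𝔫 T5.trivType h𝔫

/-- The geometric unfolding upstairs (no hypothesis on the level). -/
theorem geomUnfold_up32 (D : CompData K K') (hD : IsCompData D) :
    T5.GeomUnfold D.s D.l D.k D.𝔑 T5.trivType :=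
  T5.closed_unfold D.s D.l D.k D.𝔑 T5.trivType hD.cyc

/-- The geometric unfolding downstairs (no hypothesis on the level). -/
theorem geomUnfold_down32 (𝔫 : Ideal (𝓞 K)) :
    T5.GeomUnfold (T5.AdelicAut.id K) 1 ⊤ 𝔫 T5.trivType :=
  T4.closed_unfold K 𝔫 T5.trivType

/-- **`SpecIdC` from the class bijection ALONE** (towers T5 and T4 plugged in). -/
theorem specIdC_of_geom32 (hN : T6.NormClassC) (hI : T6.NormInjC) (hG : GeomC K K') :
    SpecIdC K K' :=
  specIdC_of (fun D hD => tower_up32 D hD) (fun 𝔫 h𝔫 => tower_down32 𝔫 h𝔫) hN hI hG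

end Fermat.Agent.LT.T7.H32

end
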