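import Mathlib
import Fermat.Agent.LT.T7.H32.SpecIdPlug
import Fermat.Agent.LT.T7.H32.Geom

/-!
# Row LT, tower T7: `SpecIdC` CLOSED modulo the two norm lemmas of T6 (helper32)

OFF-MAIN.  `specIdC32 : T6.NormClassC → T6.NormInjC → T7.SpecIdC K K'`: the SPECTRAL IDENTITY
for matched admissible pairs (`T7/Matching.lean`, helper797@cb30661f3, sha256 0549163e), from
the closed towers T5 and T4 (`T5/Closed.lean` v9, `T4/Closed.lean` v3) and the class bijection
`geomC32`.  `T6.NormClassC` and `T6.NormInjC` are closed in `T6/Closed.lean` (helper22).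
-/

set_option autoImplicit false

open IsDedekindDomain NumberField

noncomputable section

namespace Fermat.Agent.LT.T7.H32

open Fermat.Agent.LT Fermat.Agent.LT.T7

variable {K K' : Type} [Field K] [NumberField K] [Field K'] [NumberField K'] [Algebra K K']

/-- **The spectral identity for matched admissible pairs.** -/
theorem specIdC32 (hN : T6.NormClassC) (hI : T6.NormInjC) : SpecIdC K K' :=
  specIdC_of_geom32 hN hI geomC32

end Fermat.Agent.LT.T7.H32

end
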