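import Fermat.Agent.LT.T5.H32.ShiftKit
import Fermat.Agent.LT.T7.H589.StepTSpec

/-!
# Row LT, tower T7, node `B981.StepTC981` (cut of helper589, `T7/H589/StepTSpec.lean`):
# the leaves ST.4 `DEkC589` and ST.5 `DSuppC589`, PROVED (helper32)

OFF-MAIN, ADDITIVE.  Verbatim against the frozen Props of helper589:

    dEkC32 F   : ST589.DEkC589 F          dSuppC32 F : ST589.DSuppC589 F

from the kit `T5/H32/ShiftKit.lean` (finite linear combinations of right translates).  The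
equation lemmas of `ST589.dStep589` are those realised in the Spec (cited, not regenerated).
-/

set_option autoImplicit false
open IsDedekindDomain NumberField MeasureTheory
open scoped MatrixGroups ComplexConjugate Pointwise
open Fermat.Agent.LT.H556.A0 Fermat.Agent.LT.T5 Fermat.Agent.LT.T5.H32
open Fermat.Agent.LT.H942 Fermat.Agent.LT.T5.H942

noncomputable section
namespace Fermat.Agent.LT.T7.H32

open Fermat.Agent.LT.T7.ST589

variable {F : Type} [Field F] [NumberField F]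

attribute [local instance] Fermat.Agent.LT.T5.instMeasurableSpaceG

variable {μ : Measure (G F)} {D : Set (G F)}

/-! ## 1. The steps as linear combinations of right translates -/

theorem tStep_eq32 (v : HeightOneSpectrum (𝓞 F)) (H : Finset (G F)) (z : G F) (ψ : G F → ℂ) :
    tStep589 v H z ψ = fun g => ∑ h ∈ H,
      ((Real.sqrt (Ideal.absNorm v.asIdeal : ℝ) : ℝ) : ℂ)⁻¹ * ψ (g * (z⁻¹ * h)) := by
  funext g
  show ((Real.sqrt (Ideal.absNorm v.asIdeal : ℝ) : ℝ) : ℂ)⁻¹ * ∑ h ∈ H, ψ (g * z⁻¹ * h) = _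
  rw [Finset.mul_sum]
  refine Finset.sum_congr rfl fun h _ => ?_
  rw [mul_assoc]

theorem sStep_eq32 (z : G F) (ψ : G F → ℂ) : sStep589 z ψ = fun g => ψ (g * z⁻¹) := rfl

theorem hasCompactSupport_sum32 {ι : Type} (s : Finset ι) (φ : ι → G F → ℂ)
    (h : ∀ i ∈ s, HasCompactSupport (φ i)) : HasCompactSupport (fun g => ∑ i ∈ s, φ i g) := by
  classical
  induction s using Finset.induction_on with
  | empty =>
    simp only [Finset.sum_empty]
    exact HasCompactSupport.zero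
  | insert a s ha ih =>
    have e : (fun g => ∑ i ∈ insert a s, φ i g) = fun g => φ a g + ∑ i ∈ s, φ i g := by
      funext g
      rw [Finset.sum_insert ha]
    rw [e]
    exact (h a (Finset.mem_insert_self a s)).add
      (ih fun i hi => h i (Finset.mem_insert_of_mem hi))

theorem continuous_tStep32 (v : HeightOneSpectrum (𝓞 F)) (H : Finset (G F)) (z : G F)
    {ψ : G F → ℂ} (hψ : Continuous ψ) : Continuous (tStep589 v H z ψ) := by
  rw [tStep_eq32]
  exact continuous_finset_sum _ fun h _ =>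
    continuous_const.mul (continuous_shift32 hψ (z⁻¹ * h))

theorem hasCompactSupport_tStep32 (v : HeightOneSpectrum (𝓞 F)) (H : Finset (G F)) (z : G F)
    {ψ : G F → ℂ} (hψ : HasCompactSupport ψ) : HasCompactSupport (tStep589 v H z ψ) := by
  rw [tStep_eq32]
  exact hasCompactSupport_sum32 H _ fun h _ => (hasCompactSupport_shift32 hψ (z⁻¹ * h)).mul_left

/-- A pair: Eisenstein-killing with Eisenstein-killing adjoint, continuous, compact support. -/
def IsEKc32 (μ : Measure (G F)) (ψ : G F → ℂ) : Prop :=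
  Continuous ψ ∧ HasCompactSupport ψ ∧ IsEK μ ψ ∧ IsEK μ (adjointFn ψ)

theorem isEKc_tStep32 (hF : IsFrame μ D) (v : HeightOneSpectrum (𝓞 F)) (H : Finset (G F))
    (z : G F) {ψ : G F → ℂ} (hψ : IsEKc32 μ ψ) : IsEKc32 μ (tStep589 v H z ψ) := by
  obtain ⟨hc, hs, h1, h2⟩ := hψ
  refine ⟨continuous_tStep32 v H z hc, hasCompactSupport_tStep32 v H z hs, ?_, ?_⟩
  · rw [tStep_eq32]
    exact isEK_sum_shift32 hF H _ _ hc hs h1
  · rw [tStep_eq32]
    exact isEK_adjoint_sum_shift32 hF H _ _ hc hs h2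

theorem isEKc_sStep32 (hF : IsFrame μ D) (z : G F) {ψ : G F → ℂ} (hψ : IsEKc32 μ ψ) :
    IsEKc32 μ (sStep589 z ψ) := by
  obtain ⟨hc, hs, h1, h2⟩ := hψ
  exact ⟨continuous_shift32 hc z⁻¹, hasCompactSupport_shift32 hs z⁻¹, isEK_shift32 hF h1 z⁻¹,
    isEK_adjoint_shift32 hF h2 z⁻¹⟩

theorem isEKc_smul32 (c : ℂ) {ψ : G F → ℂ} (hψ : IsEKc32 μ ψ) :
    IsEKc32 μ (fun g => c * ψ g) := by
  obtain ⟨hc, hs, h1, h2⟩ := hψ
  refine ⟨continuous_const.mul hc, hs.mul_left, isEK_smul32 h1 c, ?_⟩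
  rw [adjointFn_smul32]
  exact isEK_smul32 h2 _

theorem isEK_sub32 (hF : IsFrame μ D) {a b : G F → ℂ} (hac : Continuous a)
    (has : HasCompactSupport a) (hbc : Continuous b) (hbs : HasCompactSupport b)
    (ha : IsEK μ a) (hb : IsEK μ b) : IsEK μ (fun g => a g - b g) := by
  intro Ψ hΨ x
  have h1 := integrable_Rconv32 hF hac has hΨ.cont x
  have h2 := integrable_Rconv32 hF hbc hbs hΨ.cont x
  have ea : ∫ y, a y * Ψ (x * y) ∂μ = 0 := ha Ψ hΨ x
  have eb : ∫ y, b y * Ψ (x * y) ∂μ = 0 := hb Ψ hΨ x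
  show ∫ y, (a y - b y) * Ψ (x * y) ∂μ = 0
  have e : (fun y => (a y - b y) * Ψ (x * y)) = fun y => a y * Ψ (x * y) - b y * Ψ (x * y) := by
    funext y
    ring
  rw [e, integral_sub h1 h2, ea, eb, sub_zero]

theorem isEKc_sub32 (hF : IsFrame μ D) {a b : G F → ℂ} (ha : IsEKc32 μ a) (hb : IsEKc32 μ b) :
    IsEKc32 μ (fun g => a g - b g) := by
  obtain ⟨hac, has, ha1, ha2⟩ := ha
  obtain ⟨hbc, hbs, hb1, hb2⟩ := hb
  refine ⟨hac.sub hbc, has.sub hbs, isEK_sub32 hF hac has hbc hbs ha1 hb1, ?_⟩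
  have e : adjointFn (fun g => a g - b g) = fun g => adjointFn a g - adjointFn b g := by
    funext g
    simp only [adjointFn, map_sub]
  rw [e]
  exact isEK_sub32 hF (continuous_adjointFn32 hac) (hasCompactSupport_adjointFn32 has)
    (continuous_adjointFn32 hbc) (hasCompactSupport_adjointFn32 hbs) ha2 hb2

/-- **The Dickson steps preserve the Eisenstein-killing pairs** (no hypothesis on `v`, `H`, `z`). -/
theorem isEKc_dStep32 (hF : IsFrame μ D) (v : HeightOneSpectrum (𝓞 F)) (H : Finset (G F))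
    (z : G F) {f : G F → ℂ} (hf : IsEKc32 μ f) (d : ℕ) : IsEKc32 μ (dStep589 v H z d f) := by
  have key : ∀ d : ℕ, IsEKc32 μ (dStep589 v H z d f) ∧ IsEKc32 μ (dStep589 v H z (d + 1) f) := by
    intro d
    induction d with
    | zero =>
      refine ⟨?_, ?_⟩
      · rw [ST589.dStep589.eq_1]
        exact isEKc_smul32 2 hf
      · rw [ST589.dStep589.eq_2]
        exact isEKc_tStep32 hF v H z hf
    | succ d ih =>
      refine ⟨ih.2, ?_⟩
      rw [ST589.dStep589.eq_3]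
      exact isEKc_sub32 hF (isEKc_tStep32 hF v H z ih.2) (isEKc_sStep32 hF z ih.1)
  exact (key d).1

/-! ## 2. Iwahori supports -/

theorem isIwSupp_sub32 {l : ℕ} {o : ℕ → HeightOneSpectrum (𝓞 F)} {C₁ C₂ : Set (G F)}
    {a b : G F → ℂ} (ha : IsIwSupported32 l o C₁ a) (hb : IsIwSupported32 l o C₂ b) :
    IsIwSupported32 l o (C₁ ∪ C₂) (fun g => a g - b g) := by
  intro y hy
  by_cases h1 : a y = 0
  · have h2 : b y ≠ 0 := by
      intro h2
      apply hy
      show a y - b y = 0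
      rw [h1, h2, sub_zero]
    exact (hb.mono Set.subset_union_right) y h2
  · exact (ha.mono Set.subset_union_left) y h1

/-- The existence form: Iwahori-supported in SOME compact set. -/
def IsIwC32 (l : ℕ) (o : ℕ → HeightOneSpectrum (𝓞 F)) (ψ : G F → ℂ) : Prop :=
  ∃ C : Set (G F), IsCompact C ∧ IsIwSupported32 l o C ψ

theorem isIwC_dStep32 {l : ℕ} {o : ℕ → HeightOneSpectrum (𝓞 F)} {v : HeightOneSpectrum (𝓞 F)}
    (ho : ∀ j : ℕ, j < l → o j ≠ v) {H : Finset (G F)} {z : G F}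
    (hH : IsHeckeCosetSystem v H) (hz : IsScalarUniformizerAt v z) {f : G F → ℂ}
    (hf : IsIwC32 l o f) (d : ℕ) : IsIwC32 l o (dStep589 v H z d f) := by
  have hzt : ∀ j : ℕ, j < l → TrivAtFin (o j) z⁻¹ := fun j hj =>
    trivAtFin_inv32 (hz.1.2 (o j) (ho j hj))
  have hht : ∀ h ∈ H, ∀ j : ℕ, j < l → TrivAtFin (o j) (z⁻¹ * h) := by
    intro h hh j hj
    show finComp (o j) (z⁻¹ * h) = 1
    rw [finComp_mul942, (hzt j hj : finComp (o j) z⁻¹ = 1),
      ((hH.2.1 h hh).1.2 (o j) (ho j hj) : finComp (o j) h = 1), one_mul]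
  have hT : ∀ ψ : G F → ℂ, IsIwC32 l o ψ → IsIwC32 l o (tStep589 v H z ψ) := by
    rintro ψ ⟨C, hC, hψ⟩
    rw [tStep_eq32]
    refine ⟨C * ((fun i => (z⁻¹ * i)⁻¹) '' (H : Set (G F))), ?_, ?_⟩
    · exact hC.mul ((H.finite_toSet.image _).isCompact)
    · exact isIwSupported_sum_shift32 H _ (fun h => z⁻¹ * h) hψ hht
  have hS : ∀ ψ : G F → ℂ, IsIwC32 l o ψ → IsIwC32 l o (sStep589 z ψ) := by
    rintro ψ ⟨C, hC, hψ⟩
    exact ⟨C * {(z⁻¹)⁻¹}, hC.mul isCompact_singleton, isIwSupported_shift32 hψ hzt⟩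
  have key : ∀ d : ℕ, IsIwC32 l o (dStep589 v H z d f) ∧ IsIwC32 l o (dStep589 v H z (d + 1) f) := by
    intro d
    induction d with
    | zero =>
      refine ⟨?_, ?_⟩
      · rw [ST589.dStep589.eq_1]
        obtain ⟨C, hC, hCf⟩ := hf
        refine ⟨C, hC, fun y hy => hCf y ?_⟩
        intro h0
        apply hy
        show (2 : ℂ) * f y = 0
        rw [h0, mul_zero]
      · rw [ST589.dStep589.eq_2]
        exact hT f hf
    | succ d ih =>
      refine ⟨ih.2, ?_⟩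
      rw [ST589.dStep589.eq_3]
      obtain ⟨C₁, hC₁, h₁⟩ := hT _ ih.2
      obtain ⟨C₂, hC₂, h₂⟩ := hS _ ih.1
      exact ⟨C₁ ∪ C₂, hC₁.union hC₂, isIwSupp_sub32 h₁ h₂⟩
  exact (key d).1

/-! ## 3. The leaves of helper589, verbatim -/

variable (F)

/-- **LEAF ST.4 `DEkC589`, VERBATIM.** -/
theorem dEkC32 : ST589.DEkC589 F := by
  intro R hR 𝔫 v _ H z _ _ f hf _ h1 h2 d
  have := isEKc_dStep32 hR.frame v H z (f := f) ⟨hf.cont, hf.supp, h1, h2⟩ d
  exact ⟨this.2.2.1, this.2.2.2⟩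

/-- **LEAF ST.5 `DSuppC589`, VERBATIM.** -/
theorem dSuppC32 : ST589.DSuppC589 F := by
  intro l o v ho H z hH hz f hf d
  exact isIwC_dStep32 ho hH hz hf d

end Fermat.Agent.LT.T7.H32

end
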