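import Fermat.Agent.LT.T5.H32.ShiftKit
import Fermat.Agent.LT.T7.B981.H503.StepSSpec

/-!
# Row LT, tower T7, node `B981.StepSC981` (cut of helper503, `T7/B981/H503/StepSSpec.lean`,
# sha256 b4d9e9b9): the four translation leaves, PROVED (helper32, spare)

OFF-MAIN, ADDITIVE.  Verbatim against the frozen Props of helper503:

    trTestC32 K : SS503.TrTestC503 K        trEKC32 K : SS503.TrEKC503 K
    trSuppC32 K : SS503.TrSuppC503 K        trOpC32 K : SS503.TrOpC503 K

from the kit `T5/H32/ShiftKit.lean` (right translates: `Rconv_shift32`, `isEK_shift32`,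
`isEK_adjoint_shift32`, `isIwSupported_shift32`).  General forms (ANY central element, ANY
translating element) are stated first.
-/

set_option autoImplicit false
open IsDedekindDomain NumberField MeasureTheory
open scoped MatrixGroups ComplexConjugate Pointwise
open Fermat.Agent.LT.H556.A0 Fermat.Agent.LT.T5 Fermat.Agent.LT.H942 Fermat.Agent.LT.T5.H942
open Fermat.Agent.LT.T5.H32

noncomputable section
namespace Fermat.Agent.LT.T7.H32

open Fermat.Agent.LT.T7.B981

variable {K : Type} [Field K] [NumberField K]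

attribute [local instance] Fermat.Agent.LT.T5.instMeasurableSpaceG

/-! ## 1. General forms -/

/-- **The right translate of a test function by a CENTRAL element is a test function** (same
level, same type). -/
theorem isTestFn_shift_central32 {𝔫 : Ideal (𝓞 K)} {τ φ : G K → ℂ} (hφ : IsTestFn 𝔫 τ φ)
    {z : G K} (hz : ∀ g : G K, z * g = g * z) : IsTestFn 𝔫 τ (fun g => φ (g * z)) := by
  have hsw : ∀ g u : G K, g * u * z = g * z * u := fun g u => by
    rw [mul_assoc, ← hz u, ← mul_assoc]
  refine ⟨hφ.ktype, continuous_shift32 hφ.cont z, hasCompactSupport_shift32 hφ.supp z, ?_, ?_⟩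
  · intro n h hfin hsm g
    have := hφ.smooth n h hfin hsm (g * z)
    have e : (fun t => φ (g * h t * z)) = fun t => φ (g * z * h t) := by
      funext t
      rw [hsw]
    show ContDiff ℝ _ (fun t => φ (g * h t * z))
    rw [e]
    exact this
  · refine ⟨fun u hu g => ?_, fun u hu g => ?_, fun w k hk g => ?_, fun w k hk g => ?_⟩
    · show φ (g * u * z) = φ (g * z)
      rw [hsw, hφ.inv.level_right u hu]
    · show φ (u * g * z) = φ (g * z)
      rw [mul_assoc, hφ.inv.level_left u hu]
    · show φ (g * k * z) = (τ k)⁻¹ * φ (g * z)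
      rw [hsw, hφ.inv.arch_right w k hk]
    · show φ (k * g * z) = (τ k)⁻¹ * φ (g * z)
      rw [mul_assoc, hφ.inv.arch_left w k hk]

/-- A scalar uniformiser is a scalar matrix of `GL₂(𝔸_K)`. -/
theorem isScalarG_of_uniformizer32 {v : HeightOneSpectrum (𝓞 K)} {z : G K}
    (hz : IsScalarUniformizerAt v z) : IsScalarG942 z := by
  classical
  obtain ⟨⟨hinf, hfin⟩, c, -, hc⟩ := hz
  refine ⟨(z : Matrix (Fin 2) (Fin 2) (Adl K)) 0 0, ?_⟩
  have hf : ∀ (v' : HeightOneSpectrum (𝓞 K)) (i j : Fin 2),
      ((z : Matrix (Fin 2) (Fin 2) (Adl K)) i j).2 v'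
        = (Matrix.diagonal fun _ => ((z : Matrix (Fin 2) (Fin 2) (Adl K)) 0 0).2 v') i j := by
    intro v' i j
    by_cases hv : v' = v
    · subst hv
      have h1 : ∀ i j : Fin 2, ((z : Matrix (Fin 2) (Fin 2) (Adl K)) i j).2 v'
          = (Matrix.diagonal fun _ => c) i j := fun i j => congrFun (congrFun hc i) j
      rw [h1 i j, h1 0 0, Matrix.diagonal_apply_eq]
    · have h1 : ∀ i j : Fin 2, ((z : Matrix (Fin 2) (Fin 2) (Adl K)) i j).2 v'
          = (1 : Matrix (Fin 2) (Fin 2) (v'.adicCompletion K)) i j :=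
        fun i j => congrFun (congrFun (hfin v' hv) i) j
      rw [h1 i j, h1 0 0, Matrix.one_apply_eq]
      by_cases hij : i = j
      · subst hij
        rw [Matrix.one_apply_eq, Matrix.diagonal_apply_eq]
      · rw [Matrix.one_apply_ne hij, Matrix.diagonal_apply_ne _ hij]
  have hi : ∀ (w : InfinitePlace K) (i j : Fin 2),
      ((z : Matrix (Fin 2) (Fin 2) (Adl K)) i j).1 w
        = (Matrix.diagonal fun _ => ((z : Matrix (Fin 2) (Fin 2) (Adl K)) 0 0).1 w) i j := by
    intro w i j
    rw [hinf w i j, hinf w 0 0, Matrix.one_apply_eq]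
    by_cases hij : i = j
    · subst hij
      rw [Matrix.one_apply_eq, Matrix.diagonal_apply_eq]
    · rw [Matrix.one_apply_ne hij, Matrix.diagonal_apply_ne _ hij]
  ext i j
  refine Prod.ext ?_ ?_
  · funext w
    rw [hi w i j]
    by_cases hij : i = j
    · subst hij
      rw [Matrix.diagonal_apply_eq, Matrix.diagonal_apply_eq]
    · rw [Matrix.diagonal_apply_ne _ hij, Matrix.diagonal_apply_ne _ hij]
      rfl
  · apply RestrictedProduct.ext
    intro v'
    have := hf v' i j
    by_cases hij : i = j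
    · subst hij
      rw [Matrix.diagonal_apply_eq] at this ⊢
      exact this
    · rw [Matrix.diagonal_apply_ne _ hij] at this ⊢
      exact this

/-- A scalar uniformiser is central, and so are its powers. -/
theorem uniformizer_zpow_comm32 {v : HeightOneSpectrum (𝓞 K)} {z : G K}
    (hz : IsScalarUniformizerAt v z) (t : ℤ) (g : G K) : z ^ t * g = g * z ^ t :=
  ((Commute.zpow_left ((isScalarG_of_uniformizer32 hz).commute g : Commute z g)) t).eq

theorem trivAtFin_mul32 {w : HeightOneSpectrum (𝓞 K)} {a b : G K} (ha : TrivAtFin w a)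
    (hb : TrivAtFin w b) : TrivAtFin w (a * b) := by
  show finComp w (a * b) = 1
  rw [finComp_mul942, (ha : finComp w a = 1), (hb : finComp w b = 1), one_mul]

theorem trivAtFin_pow32 {w : HeightOneSpectrum (𝓞 K)} {a : G K} (ha : TrivAtFin w a) (n : ℕ) :
    TrivAtFin w (a ^ n) := by
  induction n with
  | zero =>
    rw [pow_zero]
    exact finComp_one942 w
  | succ n ih =>
    rw [pow_succ]
    exact trivAtFin_mul32 ih ha

theorem trivAtFin_zpow32 {w : HeightOneSpectrum (𝓞 K)} {a : G K} (ha : TrivAtFin w a) (t : ℤ) :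
    TrivAtFin w (a ^ t) := by
  cases t with
  | ofNat n =>
    rw [Int.ofNat_eq_natCast, zpow_natCast]
    exact trivAtFin_pow32 ha n
  | negSucc n =>
    rw [zpow_negSucc]
    exact trivAtFin_inv32 (trivAtFin_pow32 ha (n + 1))

/-- The eigen-equation of the scalar uniformiser, iterated. -/
theorem eigen_pow32 {χ : G K → ℂ} {z : G K} {b : ℂ} (h : ∀ g : G K, χ (g * z) = b * χ g)
    (k : ℕ) (g : G K) : χ (g * z ^ k) = b ^ k * χ g := by
  induction k generalizing g with
  | zero => simp
  | succ k ih =>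
    rw [pow_succ, ← mul_assoc, h, ih, pow_succ]
    ring

/-! ## 2. The leaves of helper503, verbatim -/

variable (K)

/-- **LEAF SS.1 `TrTestC503`, VERBATIM.** -/
theorem trTestC32 : SS503.TrTestC503 K := by
  intro 𝔫 v z hz t φ hφ
  exact isTestFn_shift_central32 hφ (uniformizer_zpow_comm32 hz t)

/-- **LEAF SS.2 `TrEKC503`, VERBATIM.** -/
theorem trEKC32 : SS503.TrEKC503 K := by
  intro μ F hF v z _ t φ
  exact ⟨fun h => isEK_shift32 hF h (z ^ t), fun h => isEK_adjoint_shift32 hF h (z ^ t)⟩

/-- **LEAF SS.3 `TrSuppC503`, VERBATIM.** -/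
theorem trSuppC32 : SS503.TrSuppC503 K := by
  intro l o v z hz ho t φ hC
  obtain ⟨C, hCc, hCφ⟩ := hC
  refine ⟨C * {(z ^ t)⁻¹}, hCc.mul isCompact_singleton, ?_⟩
  exact isIwSupported_shift32 hCφ fun j hj => trivAtFin_zpow32 (hz.1.2 (o j) (ho j hj)) t

/-- **LEAF SS.4 `TrOpC503`, VERBATIM.** -/
theorem trOpC32 : SS503.TrOpC503 K := by
  intro μ F hF χ v a b hχ z hz k φ y
  have hb : ∀ g : G K, χ (g * z) = b * χ g := hχ.2 z hz
  have hpow : ∀ g : G K, χ (g * z ^ k) = b ^ k * χ g := eigen_pow32 hb k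
  have hsm : ∀ (c : ℂ) (e : G K → ℂ), Rconv μ φ (fun u => c * e u) y = c * Rconv μ φ e y := by
    intro c e
    unfold Rconv
    rw [← integral_const_mul]
    congr 1
    funext u
    ring
  constructor
  · show Rconv μ (fun g => φ (g * z ^ (-(k : ℤ)))) χ y = b ^ k * Rconv μ φ χ y
    rw [Rconv_shift32 hF, ← hsm]
    congr 1
    funext u
    rw [zpow_neg, inv_inv, zpow_natCast]
    exact hpow u
  · show Rconv μ (fun g => φ (g * z ^ (k : ℤ))) χ y = (b ^ k)⁻¹ * Rconv μ φ χ y
    rw [Rconv_shift32 hF, ← hsm]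
    congr 1
    funext u
    rw [zpow_natCast]
    have h1 : χ u = b ^ k * χ (u * (z ^ k)⁻¹) := by
      have := hpow (u * (z ^ k)⁻¹)
      rw [inv_mul_cancel_right] at this
      exact this
    by_cases hbk : b ^ k = 0
    · have hu0 : ∀ u' : G K, χ u' = 0 := by
        intro u'
        have := hpow (u' * (z ^ k)⁻¹)
        rw [inv_mul_cancel_right, hbk, zero_mul] at this
        exact this
      rw [hu0, hu0, mul_zero]
    · rw [h1, ← mul_assoc, inv_mul_cancel₀ hbk, one_mul]

end Fermat.Agent.LT.T7.H32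

end
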