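import Fermat.Agent.LT.T5.H32.SphereTest
import Fermat.Agent.LT.T2.H655.HeckePres
import Fermat.Agent.LT.T7.H32.StepSTr
import Fermat.Agent.LT.T7.H32.StepTEk

/-!
# Row LT, tower T7, node `B981.StepTC981` (cut of helper589, `T7/H589/StepTSpec.lean`):
# the leaf ST.3 `DTestC589`, PROVED (helper32)

OFF-MAIN, ADDITIVE.  Verbatim against the frozen Prop of helper589:

    dTestC32 F : ST589.DTestC589 F

The Dickson steps at a place prime to the level preserve the test functions of the level.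
Level invariance of the Hecke sum: the closed T2 asset `T2.H655.heckeSum_level_inv655`
(completeness of the coset system).  Smoothness at infinity and the archimedean invariances:
the translating elements are trivial at the infinite places (`comm_fin_inf32`).
-/

set_option autoImplicit false
open IsDedekindDomain NumberField MeasureTheory
open scoped MatrixGroups ComplexConjugate Pointwise ContDiff
open Fermat.Agent.LT.H556.A0 Fermat.Agent.LT.T5 Fermat.Agent.LT.T5.H32
open Fermat.Agent.LT.H942 Fermat.Agent.LT.T5.H942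

noncomputable section
namespace Fermat.Agent.LT.T7.H32

open Fermat.Agent.LT.T7.ST589

variable {F : Type} [Field F] [NumberField F]

attribute [local instance] Fermat.Agent.LT.T5.instMeasurableSpaceG

/-! ## 1. Linear combinations of test functions -/

theorem isTestFn_smul32 {𝔫 : Ideal (𝓞 F)} {τ φ : G F → ℂ} (c : ℂ) (hφ : IsTestFn 𝔫 τ φ) :
    IsTestFn 𝔫 τ (fun g => c * φ g) := by
  refine ⟨hφ.ktype, continuous_const.mul hφ.cont, hφ.supp.mul_left, ?_, ?_⟩
  · intro n h hfin hsm g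
    exact contDiff_const.mul (hφ.smooth n h hfin hsm g)
  · refine ⟨fun u hu g => ?_, fun u hu g => ?_, fun w k hk g => ?_, fun w k hk g => ?_⟩
    · show c * φ (g * u) = c * φ g
      rw [hφ.inv.level_right u hu]
    · show c * φ (u * g) = c * φ g
      rw [hφ.inv.level_left u hu]
    · show c * φ (g * k) = (τ k)⁻¹ * (c * φ g)
      rw [hφ.inv.arch_right w k hk]
      ring
    · show c * φ (k * g) = (τ k)⁻¹ * (c * φ g)
      rw [hφ.inv.arch_left w k hk]
      ring

theorem isTestFn_sub32 {𝔫 : Ideal (𝓞 F)} {τ a b : G F → ℂ} (ha : IsTestFn 𝔫 τ a)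
    (hb : IsTestFn 𝔫 τ b) : IsTestFn 𝔫 τ (fun g => a g - b g) := by
  refine ⟨ha.ktype, ha.cont.sub hb.cont, ha.supp.sub hb.supp, ?_, ?_⟩
  · intro n h hfin hsm g
    exact (ha.smooth n h hfin hsm g).sub (hb.smooth n h hfin hsm g)
  · refine ⟨fun u hu g => ?_, fun u hu g => ?_, fun w k hk g => ?_, fun w k hk g => ?_⟩
    · show a (g * u) - b (g * u) = a g - b g
      rw [ha.inv.level_right u hu, hb.inv.level_right u hu]
    · show a (u * g) - b (u * g) = a g - b g
      rw [ha.inv.level_left u hu, hb.inv.level_left u hu]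
    · show a (g * k) - b (g * k) = (τ k)⁻¹ * (a g - b g)
      rw [ha.inv.arch_right w k hk, hb.inv.arch_right w k hk]
      ring
    · show a (k * g) - b (k * g) = (τ k)⁻¹ * (a g - b g)
      rw [ha.inv.arch_left w k hk, hb.inv.arch_left w k hk]
      ring

/-! ## 2. Commutation -/

theorem infComp_inv_of_one32 {w : InfinitePlace F} {a : G F} (ha : infComp w a = 1) :
    infComp w a⁻¹ = 1 := by
  have := infComp_mul942 w a⁻¹ a
  rw [inv_mul_cancel, infComp_one942, ha, mul_one] at this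
  exact this.symm

/-- An element which is trivial at the infinite places commutes with an element which is trivial
at the finite places. -/
theorem comm_fin_inf32 {a b : G F} (ha : ∀ w : InfinitePlace F, infComp w a = 1)
    (hb : ∀ v : HeightOneSpectrum (𝓞 F), finComp v b = 1) : a * b = b * a :=
  comm_of_disjoint32 (fun w => Or.inl (ha w)) (fun v => Or.inr (hb v))

/-- The translating elements `z⁻¹ h` of the step of `T_v` are trivial at infinity. -/
theorem infComp_step32 {v : HeightOneSpectrum (𝓞 F)} {H : Finset (G F)} {z : G F}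
    (hH : IsHeckeCosetSystem v H) (hz : IsScalarUniformizerAt v z) {h : G F} (hh : h ∈ H)
    (w : InfinitePlace F) : infComp w (z⁻¹ * h) = 1 := by
  rw [infComp_mul942, infComp_inv_of_one32 (infComp_of_trivAtInf32 (hz.1.1 w)),
    infComp_of_trivAtInf32 ((hH.2.1 h hh).1.1 w), one_mul]

/-! ## 3. The steps -/

theorem isTestFn_sStep32 {𝔫 : Ideal (𝓞 F)} {τ ψ : G F → ℂ} {v : HeightOneSpectrum (𝓞 F)}
    {z : G F} (hz : IsScalarUniformizerAt v z) (hψ : IsTestFn 𝔫 τ ψ) :
    IsTestFn 𝔫 τ (sStep589 z ψ) := by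
  have hc : ∀ g : G F, z⁻¹ * g = g * z⁻¹ := fun g => by
    have := uniformizer_zpow_comm32 hz (-1) g
    rwa [zpow_neg_one] at this
  exact isTestFn_shift_central32 hψ hc

theorem isTestFn_tStep32 {𝔫 : Ideal (𝓞 F)} {τ ψ : G F → ℂ} {v : HeightOneSpectrum (𝓞 F)}
    (hv : ¬ v.asIdeal ∣ 𝔫) {H : Finset (G F)} {z : G F} (hH : IsHeckeCosetSystem v H)
    (hz : IsScalarUniformizerAt v z) (hψ : IsTestFn 𝔫 τ ψ) :
    IsTestFn 𝔫 τ (tStep589 v H z ψ) := by
  have hzc : ∀ g : G F, z⁻¹ * g = g * z⁻¹ := fun g => by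
    have := uniformizer_zpow_comm32 hz (-1) g
    rwa [zpow_neg_one] at this
  refine ⟨hψ.ktype, continuous_tStep32 v H z hψ.cont, hasCompactSupport_tStep32 v H z hψ.supp,
    ?_, ?_⟩
  · intro n h hfin hsm g
    have e : (fun t => tStep589 v H z ψ (g * h t))
        = fun t => ∑ h' ∈ H, ((Real.sqrt (Ideal.absNorm v.asIdeal : ℝ) : ℝ) : ℂ)⁻¹
            * ψ (g * (z⁻¹ * h') * h t) := by
      funext t
      rw [tStep_eq32]
      refine Finset.sum_congr rfl fun h' hh' => ?_
      rw [mul_assoc g (h t), ← comm_fin_inf32 (infComp_step32 hH hz hh') (hfin t), ← mul_assoc]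
    show ContDiff ℝ ∞ (fun t => tStep589 v H z ψ (g * h t))
    rw [e]
    exact ContDiff.sum fun h' _ => contDiff_const.mul (hψ.smooth n h hfin hsm (g * (z⁻¹ * h')))
  · refine ⟨fun u hu g => ?_, fun u hu g => ?_, fun w k hk g => ?_, fun w k hk g => ?_⟩
    · -- level, right: completeness of the coset system
      show ((Real.sqrt (Ideal.absNorm v.asIdeal : ℝ) : ℝ) : ℂ)⁻¹ * ∑ h ∈ H, ψ (g * u * z⁻¹ * h)
        = ((Real.sqrt (Ideal.absNorm v.asIdeal : ℝ) : ℝ) : ℂ)⁻¹ * ∑ h ∈ H, ψ (g * z⁻¹ * h)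
      congr 1
      have e : ∀ h : G F, g * u * z⁻¹ * h = g * z⁻¹ * u * h := fun h => by
        rw [mul_assoc g u, ← hzc u, ← mul_assoc]
      simp only [e]
      exact T2.H655.heckeSum_level_inv655 hv hH hψ.inv.level_right hu (g * z⁻¹)
    · show ((Real.sqrt (Ideal.absNorm v.asIdeal : ℝ) : ℝ) : ℂ)⁻¹ * ∑ h ∈ H, ψ (u * g * z⁻¹ * h)
        = ((Real.sqrt (Ideal.absNorm v.asIdeal : ℝ) : ℝ) : ℂ)⁻¹ * ∑ h ∈ H, ψ (g * z⁻¹ * h)
      congr 1
      refine Finset.sum_congr rfl fun h _ => ?_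
      rw [mul_assoc u, mul_assoc u, hψ.inv.level_left u hu]
    · show ((Real.sqrt (Ideal.absNorm v.asIdeal : ℝ) : ℝ) : ℂ)⁻¹ * ∑ h ∈ H, ψ (g * k * z⁻¹ * h)
        = (τ k)⁻¹ * (((Real.sqrt (Ideal.absNorm v.asIdeal : ℝ) : ℝ) : ℂ)⁻¹
            * ∑ h ∈ H, ψ (g * z⁻¹ * h))
      have e : ∀ h ∈ H, ψ (g * k * z⁻¹ * h) = (τ k)⁻¹ * ψ (g * z⁻¹ * h) := by
        intro h hh
        have hcomm : (z⁻¹ * h) * k = k * (z⁻¹ * h) :=
          comm_fin_inf32 (infComp_step32 hH hz hh) (fun v' => hk.1.2 v')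
        rw [mul_assoc (g * k), mul_assoc g k, ← hcomm, ← mul_assoc g, hψ.inv.arch_right w k hk,
          mul_assoc g]
      rw [Finset.sum_congr rfl e, ← Finset.mul_sum]
      ring
    · show ((Real.sqrt (Ideal.absNorm v.asIdeal : ℝ) : ℝ) : ℂ)⁻¹ * ∑ h ∈ H, ψ (k * g * z⁻¹ * h)
        = (τ k)⁻¹ * (((Real.sqrt (Ideal.absNorm v.asIdeal : ℝ) : ℝ) : ℂ)⁻¹
            * ∑ h ∈ H, ψ (g * z⁻¹ * h))
      have e : ∀ h ∈ H, ψ (k * g * z⁻¹ * h) = (τ k)⁻¹ * ψ (g * z⁻¹ * h) := by
        intro h _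
        rw [mul_assoc k, mul_assoc k, hψ.inv.arch_left w k hk]
      rw [Finset.sum_congr rfl e, ← Finset.mul_sum]
      ring

/-- **The Dickson steps preserve the test functions of a level prime to `v`.** -/
theorem isTestFn_dStep32 {𝔫 : Ideal (𝓞 F)} {τ f : G F → ℂ} {v : HeightOneSpectrum (𝓞 F)}
    (hv : ¬ v.asIdeal ∣ 𝔫) {H : Finset (G F)} {z : G F} (hH : IsHeckeCosetSystem v H)
    (hz : IsScalarUniformizerAt v z) (hf : IsTestFn 𝔫 τ f) (d : ℕ) :
    IsTestFn 𝔫 τ (dStep589 v H z d f) := by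
  have key : ∀ d : ℕ, IsTestFn 𝔫 τ (dStep589 v H z d f) ∧
      IsTestFn 𝔫 τ (dStep589 v H z (d + 1) f) := by
    intro d
    induction d with
    | zero =>
      refine ⟨?_, ?_⟩
      · rw [ST589.dStep589.eq_1]
        exact isTestFn_smul32 2 hf
      · rw [ST589.dStep589.eq_2]
        exact isTestFn_tStep32 hv hH hz hf
    | succ d ih =>
      refine ⟨ih.2, ?_⟩
      rw [ST589.dStep589.eq_3]
      exact isTestFn_sub32 (isTestFn_tStep32 hv hH hz ih.2) (isTestFn_sStep32 hz ih.1)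
  exact (key d).1

variable (F)

/-- **LEAF ST.3 `DTestC589`, VERBATIM.** -/
theorem dTestC32 : ST589.DTestC589 F := by
  intro 𝔫 v hv H z hH hz f hf d
  exact isTestFn_dStep32 hv hH hz hf d

end Fermat.Agent.LT.T7.H32

end
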