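import Fermat.Agent.LT.T7.Level2
import Fermat.Agent.LT.T5.H32.EKIdeal

/-!
# Row LT, tower T7, node T7.L2.1 SupplyC (helper32): `T7.IsEKProd` is a two-sided ideal

OFF-MAIN, ADDITIVE.  Vocabulary: `T7/Level2.lean` 15516646 (helper797), `T5/Spec.lean` v4.
For the fields `ekprod_up` / `ekprod_down` of `T7.IsL2Data`.

The only input which is not proved here is the statement that the convolution of two test
functions is a test function (`ConvTestC32 𝔫 μ`, row 1858 of helper872): it is a HYPOTHESIS of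
the lemmas (`fun a b ha hb => isTestFn_conv872 … ha hb` proves it).

* `isEKProd_mk32` : `φ₁, φ₂` Eisenstein-killing test functions with Eisenstein-killing adjoints
  ⟹ `IsEKProd (φ₁ ⋆ φ₂)`;
* `isEKProd_conv_left32` : `IsEKProd φ` ⟹ `IsEKProd (β ⋆ φ)` for every test function `β`;
* `isEKProd_conv_right32` : `IsEKProd φ` ⟹ `IsEKProd (φ ⋆ β)`;
* `isEKProd_of_parts32` : `IsEKProd ((β₁ ⋆ φ₁) ⋆ (φ₂ ⋆ β₂))`;
* `isEKTest_conv_left32`, `isEKTest_conv_right32` : the four EK clauses for `β ⋆ φ`, `φ ⋆ β`.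
-/

set_option autoImplicit false
open IsDedekindDomain NumberField MeasureTheory
open scoped MatrixGroups ComplexConjugate Pointwise
open Fermat.Agent.LT.H556.A0

noncomputable section
namespace Fermat.Agent.LT.T7.H32

variable {K : Type} [Field K] [NumberField K]

attribute [local instance] Fermat.Agent.LT.T5.instMeasurableSpaceG

/-- The convolution of two test functions (level `𝔫`, trivial type) is a test function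
(row 1858, helper872: `isTestFn_conv872`). -/
def ConvTestC32 (𝔫 : Ideal (𝓞 K)) (μ : Measure (G K)) : Prop :=
  ∀ a b : G K → ℂ, T5.IsTestFn 𝔫 T5.trivType a → T5.IsTestFn 𝔫 T5.trivType b →
    T5.IsTestFn 𝔫 T5.trivType (T5.conv μ a b)

/-- A test function which is Eisenstein-killing with Eisenstein-killing adjoint. -/
def IsEKTest32 (𝔫 : Ideal (𝓞 K)) (μ : Measure (G K)) (φ : G K → ℂ) : Prop :=
  T5.IsTestFn 𝔫 T5.trivType φ ∧ T5.IsEK μ φ ∧ T5.IsEK μ (T5.adjointFn φ)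

variable {𝔫 : Ideal (𝓞 K)} {R : Frame5 K}

theorem isEKTest_conv_left32 (hF : IsFrame5 R) (hT : ConvTestC32 𝔫 R.μ) {β φ : G K → ℂ}
    (hβ : T5.IsTestFn 𝔫 T5.trivType β) (hφ : IsEKTest32 𝔫 R.μ φ) :
    IsEKTest32 𝔫 R.μ (T5.conv R.μ β φ) :=
  ⟨hT β φ hβ hφ.1,
    T5.H32.isEK_conv_right32 hF.frame hβ.cont hβ.supp hφ.1.cont hφ.1.supp hφ.2.1,
    T5.H32.isEK_adjoint_conv_right32 hF.frame hβ.cont hβ.supp hφ.1.cont hφ.1.supp hφ.2.2⟩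

theorem isEKTest_conv_right32 (hF : IsFrame5 R) (hT : ConvTestC32 𝔫 R.μ) {β φ : G K → ℂ}
    (hβ : T5.IsTestFn 𝔫 T5.trivType β) (hφ : IsEKTest32 𝔫 R.μ φ) :
    IsEKTest32 𝔫 R.μ (T5.conv R.μ φ β) :=
  ⟨hT φ β hφ.1 hβ,
    T5.H32.isEK_conv_left32 hF.frame hβ.cont hβ.supp hφ.1.cont hφ.1.supp hφ.2.1,
    T5.H32.isEK_adjoint_conv_left32 hF.frame hβ.cont hβ.supp hφ.1.cont hφ.1.supp hφ.2.2⟩

theorem isEKProd_mk32 (hT : ConvTestC32 𝔫 R.μ) {φ₁ φ₂ : G K → ℂ}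
    (h₁ : IsEKTest32 𝔫 R.μ φ₁) (h₂ : IsEKTest32 𝔫 R.μ φ₂) :
    IsEKProd 𝔫 R (T5.conv R.μ φ₁ φ₂) :=
  ⟨hT φ₁ φ₂ h₁.1 h₂.1, φ₁, φ₂, h₁.1, h₂.1, h₁.2.1, h₁.2.2, h₂.2.1, h₂.2.2, rfl⟩

theorem isEKProd_conv_left32 (hF : IsFrame5 R) (hT : ConvTestC32 𝔫 R.μ) {β φ : G K → ℂ}
    (hβ : T5.IsTestFn 𝔫 T5.trivType β) (hφ : IsEKProd 𝔫 R φ) :
    IsEKProd 𝔫 R (T5.conv R.μ β φ) := by
  obtain ⟨_, φ₁, φ₂, h₁, h₂, e₁, e₁', e₂, e₂', rfl⟩ := hφ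
  rw [← T5.H32.conv_assoc32 hF.frame hβ.cont hβ.supp h₁.cont h₁.supp h₂.cont]
  exact isEKProd_mk32 hT (isEKTest_conv_left32 hF hT hβ ⟨h₁, e₁, e₁'⟩) ⟨h₂, e₂, e₂'⟩

theorem isEKProd_conv_right32 (hF : IsFrame5 R) (hT : ConvTestC32 𝔫 R.μ) {β φ : G K → ℂ}
    (hβ : T5.IsTestFn 𝔫 T5.trivType β) (hφ : IsEKProd 𝔫 R φ) :
    IsEKProd 𝔫 R (T5.conv R.μ φ β) := by
  obtain ⟨_, φ₁, φ₂, h₁, h₂, e₁, e₁', e₂, e₂', rfl⟩ := hφ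
  rw [T5.H32.conv_assoc32 hF.frame h₁.cont h₁.supp h₂.cont h₂.supp hβ.cont]
  exact isEKProd_mk32 hT ⟨h₁, e₁, e₁'⟩ (isEKTest_conv_right32 hF hT hβ ⟨h₂, e₂, e₂'⟩)

/-- The shape of the members of the families of `SupplyC`: `(β₁ ⋆ φ₁) ⋆ (φ₂ ⋆ β₂)`. -/
theorem isEKProd_of_parts32 (hF : IsFrame5 R) (hT : ConvTestC32 𝔫 R.μ)
    {β₁ β₂ φ₁ φ₂ : G K → ℂ} (hβ₁ : T5.IsTestFn 𝔫 T5.trivType β₁)
    (hβ₂ : T5.IsTestFn 𝔫 T5.trivType β₂) (h₁ : IsEKTest32 𝔫 R.μ φ₁)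
    (h₂ : IsEKTest32 𝔫 R.μ φ₂) :
    IsEKProd 𝔫 R (T5.conv R.μ (T5.conv R.μ β₁ φ₁) (T5.conv R.μ φ₂ β₂)) :=
  isEKProd_mk32 hT (isEKTest_conv_left32 hF hT hβ₁ h₁) (isEKTest_conv_right32 hF hT hβ₂ h₂)

/-- Admissibility of the members: `IsEKProd` + regularity (assembly `isAdm5_of_ekProd`). -/
theorem isAdm5_of_parts32 (hF : IsFrame5 R) (hT : ConvTestC32 𝔫 R.μ)
    {s : T5.AdelicAut K} {l : ℕ} {k : Subfield K}
    {β₁ β₂ φ₁ φ₂ : G K → ℂ} (hβ₁ : T5.IsTestFn 𝔫 T5.trivType β₁)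
    (hβ₂ : T5.IsTestFn 𝔫 T5.trivType β₂) (h₁ : IsEKTest32 𝔫 R.μ φ₁)
    (h₂ : IsEKTest32 𝔫 R.μ φ₂)
    (hr : T5.IsTwRegular s l k (T5.conv R.μ (T5.conv R.μ β₁ φ₁) (T5.conv R.μ φ₂ β₂))) :
    IsAdm5 s l k 𝔫 R (T5.conv R.μ (T5.conv R.μ β₁ φ₁) (T5.conv R.μ φ₂ β₂)) :=
  isAdm5_of_ekProd (isEKProd_of_parts32 hF hT hβ₁ hβ₂ h₁ h₂) hr

end Fermat.Agent.LT.T7.H32

end
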