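import Fermat.Agent.LT.T5.H32.SphereTest
import Fermat.Agent.LT.T1.Closed
import Fermat.Agent.LT.T7.H445.StepMSpec

/-!
# Row LT, tower T7, node `B981.StepMC981` (cut of helper445, `T7/H445/StepMSpec.lean`):
# the leaves M.1 `SphTestC445`, M.2 `SphEKC445`, PROVED (helper32)

OFF-MAIN, ADDITIVE.  Verbatim against the frozen Props of helper445:

    sphTestC32 K : H445.SphTestC445 K      (the sphere mean of a test function is a test
                                            function: smoothness at infinity included)
    sphEKC32 K   : H445.SphEKC445 K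

from the kits `T5/H32/{ShiftKit, SphereSmooth, SphereTest}.lean` and `T1.t1Out`.
-/

set_option autoImplicit false
open IsDedekindDomain NumberField MeasureTheory
open scoped MatrixGroups ComplexConjugate Pointwise
open Fermat.Agent.LT.H556.A0 Fermat.Agent.LT.T5 Fermat.Agent.LT.T5.H32

noncomputable section
namespace Fermat.Agent.LT.T7.H32

variable (K : Type) [Field K] [NumberField K]

attribute [local instance] Fermat.Agent.LT.T5.instMeasurableSpaceG

/-- **LEAF M.1 `SphTestC445`, VERBATIM.** -/
theorem sphTestC32 : H445.SphTestC445 K := by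
  intro 𝔫 w hw d Y hY φ hφ
  exact isTestFn_sphere32 (T1.t1Out K) hφ hw d hY

/-- **LEAF M.2 `SphEKC445`, VERBATIM.** -/
theorem sphEKC32 : H445.SphEKC445 K := by
  intro R hR 𝔫 w _ d Y hY φ hφ h1 h2
  exact isEKPair_sphere32 (T1.t1Out K) hR.frame hφ.cont hφ.supp ⟨h1, h2⟩ w d hY

end Fermat.Agent.LT.T7.H32

end
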